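import Fermat.Agent.LT.T7.P51.ConvAvgSpec
import Fermat.Agent.LT.T7.H409.RegOrb
import Fermat.Agent.LT.T7.H644.ProdBook
import Fermat.Agent.LT.T7.H333.SphInv

/-!
# Row LT, tower T7, leaf T7.L2.1.H2b.G2.6 `P51.RegOpC51` (helper448, registry row 2938): PROVED

OFF-MAIN.  No hole, nothing assumed.

    regOpC448 (K K') : P51.RegOpC51 K K'

VERBATIM vs `T7/P51/ConvAvgSpec.lean` (helper51, sha256 dc819a38).  The components of a pure
tensor of the shape `LocOp51` are regular at the places of `T` and at infinity: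

* bad places (`v ∈ T₀`, `v ≠ u`): the clauses `inv_up`, `inv_down` of the `LocHyp893` contained
  in `LocB893b` (double coset functions upstairs, the partner downstairs);
* the place `u` and its orbit: `regLoc51` of the Iwahori function and the Iwahori function are
  bi-invariant under the Iwahori subgroup with finite support (helper409,
  `isIwReg_regLoc409`, `isIwReg_iwFn409`), and `U(n) ⊆ I` for `n ≥ 1` (`one_le_level409`);
* outside the level: the levels vanish (`levelAtC644`, helper644) and spherical functions are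
  bi-`GL₂(𝒪)`-invariant with finite support (`sphInvC333`, helper333);
* at infinity: the clauses `arch_up`, `arch_down` of the same `LocHyp893`.
-/

set_option autoImplicit false

open AutomorphicForm IsDedekindDomain NumberField MeasureTheory
open scoped ComplexConjugate

noncomputable section

namespace Fermat.Agent.LT.T7.H448

open Fermat.Agent.LT.H556 Fermat.Agent.LT.H556.A0 Fermat.Agent.LT.T7
open Fermat.Agent.LT.T7.H305 Fermat.Agent.LT.T7.H893 Fermat.Agent.LT.T7.P51
open Fermat.Agent.LT.T7.H409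

variable (K K' : Type) [Field K] [NumberField K] [Field K'] [NumberField K'] [Algebra K K']

/-- **LEAF P.G2.6 = REG-OP of helper51's cut of `ProdMtCb`: PROVED.** -/
theorem regOpC448 : Fermat.Agent.LT.T7.P51.RegOpC51 K K' := by
  classical
  intro ℓ Φ B g 𝔫 μc T₀ n n₀ m hctx H' z' H z hsys k j T φ₀ Φ' f₀ F hT hop
  obtain ⟨φ₂, f₂, hB, hbad, hfu, hφ0, hφi, hout⟩ := hop
  obtain ⟨hLH, -, -, -, hsph, -⟩ := hB
  have hlev : IsLevelAt305 T₀ n m :=
    Fermat.Agent.LT.T7.H644.levelAtC644 K K' 𝔫 T₀ n m hctx.mem_T₀ hctx.lev_m hctx.lev_n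
  have hup : upI (K' := K') 𝔫 ≠ ⊥ := by
    show Ideal.map (algebraMap (𝓞 K) (𝓞 K')) 𝔫 ≠ ⊥
    intro h0
    exact hsys.level_ne ((Ideal.map_eq_bot_iff_of_injective
      (FaithfulSMul.algebraMap_injective (𝓞 K) (𝓞 K'))).mp h0)
  refine ⟨fun v hv => ?_, fun w => ⟨(hLH.arch_up w).1, (hLH.arch_up w).2.1⟩,
    fun v => ⟨(hLH.arch_down v).1, (hLH.arch_down v).2.1⟩⟩
  by_cases hv0 : v ∈ T₀
  · by_cases hvu : v = B.u
    · -- the place `u` and its orbit
      subst hvu
      refine ⟨fun w hw => ?_, ?_⟩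
      · obtain ⟨i, hi, rfl⟩ := hctx.base.orbit_all w hw
        have hn1 : 1 ≤ n (B.o i) :=
          one_le_level409 hup hctx.lev_n
            ((hsys.mem_S'_g (B.o i)).mp (hctx.base.orbit_level i))
        have hreg : IsIwReg409 (B.o i) (n (B.o i)) (φ₀ (B.o i)) := by
          by_cases hi0 : B.o i = B.o 0
          · rw [hi0, hφ0]
            exact isIwReg_regLoc409 _ hsys.sys' hsys.unif' k j
          · have hipos : 0 < i := by
              rcases Nat.eq_zero_or_pos i with h | h
              · exact absurd (by rw [h]) hi0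
              · exact h
            rw [hφi i hipos (by rw [hctx.base.deg]; exact hi)]
            exact isIwReg_iwFn409 _
        exact ⟨isBiInv_of_isIwReg409 hn1 hreg, hreg.2.2⟩
      · have hm1 : 1 ≤ m B.u := one_le_level409 hsys.level_ne hctx.lev_m hsys.u_level
        have hreg : IsIwReg409 B.u (m B.u) (f₀ B.u) := by
          rw [hfu]
          exact isIwReg_regLoc409 _ hsys.sys hsys.unif k j
        exact ⟨isBiInv_of_isIwReg409 hm1 hreg, hreg.2.2⟩
    · -- the bad places
      obtain ⟨hf, hφ⟩ := hbad v hv0 hvu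
      refine ⟨fun w hw => ?_, ?_⟩
      · rw [hφ w hw]
        exact hLH.inv_up v (Finset.mem_erase.2 ⟨hvu, hv0⟩) w hw
      · rw [hf]
        exact hLH.inv_down v (Finset.mem_erase.2 ⟨hvu, hv0⟩)
  · -- outside the level
    obtain ⟨hf, hφ⟩ := hout v hv hv0
    obtain ⟨A, Av, hAv, hA, -, -⟩ := hsph v hv hv0
    refine ⟨fun w hw => ?_, ?_⟩
    · rw [hφ w hw, hlev.2 v w hv0 hw]
      exact Fermat.Agent.LT.T7.H333.sphInvC333 K' w (φ₂ w) (A w) (hA w hw)
    · rw [hf, hlev.1 v hv0]
      exact Fermat.Agent.LT.T7.H333.sphInvC333 K v (f₂ v) Av hAv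

end Fermat.Agent.LT.T7.H448

end
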